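import Fermat.Agent.S33.N4.Poly

set_option autoImplicit false

/-!
# S33 / N4 : interpolation

A polynomial whose values at all `t ∈ A` (outside finitely many residue classes) lie in `ϖ A` has all its
coefficients in `ϖ A`  (the residue field is infinite).
-/

open Polynomial

namespace Fermat.Agent.S33.N4

variable {K : Type*} [Field K]

/-- the content, without integrality. -/
theorem exists_content' {A : ValuationSubring K} {D : K[X]} (h0 : D ≠ 0) :
    ∃ d : K, d ≠ 0 ∧ ∃ D' : K[X], PrimP A D' ∧ D = C d * D' := by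
  have hne : D.support.Nonempty := by
    rwa [Finset.nonempty_iff_ne_empty, Ne, Polynomial.support_eq_empty]
  obtain ⟨i0, hi0, hmax⟩ := Finset.exists_max_image D.support
    (fun i => A.valuation (D.coeff i)) hne
  have hd0 : D.coeff i0 ≠ 0 := Polynomial.mem_support_iff.1 hi0
  refine ⟨D.coeff i0, hd0, C (D.coeff i0)⁻¹ * D, ⟨?_, i0, ?_⟩, ?_⟩
  · intro j
    rw [coeff_C_mul, ← A.valuation_le_one_iff, map_mul, map_inv₀]
    by_cases hj : D.coeff j = 0
    · rw [hj, map_zero, mul_zero]; exact zero_le_one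
    · have h1 := hmax j (Polynomial.mem_support_iff.2 hj)
      have h2 : A.valuation (D.coeff i0) ≠ 0 := (Valuation.ne_zero_iff _).2 hd0
      rw [inv_mul_le_iff₀ (zero_lt_iff.2 h2), mul_one]
      exact h1
  · rw [coeff_C_mul, inv_mul_cancel₀ hd0]
    intro h
    have := (A.mem_nonunits_iff).1 h
    simp at this
  · rw [← mul_assoc, ← C_mul, mul_inv_cancel₀ hd0, C_1, one_mul]

/-- a primitive polynomial takes a unit value outside finitely many residue classes. -/
theorem exists_bad_set {A : ValuationSubring K} {P : K[X]} (hP : PrimP A P) :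
    ∃ Γ : Finset K, ∀ t ∈ A, (∀ γ ∈ Γ, t - γ ∉ A.nonunits) → P.eval t ∉ A.nonunits := by
  classical
  obtain ⟨P', rfl⟩ := exists_lift hP.1
  set Pb : (IsLocalRing.ResidueField A)[X] := P'.map (IsLocalRing.residue A) with hPb
  have hPb0 : Pb ≠ 0 := by
    obtain ⟨i, hi⟩ := hP.2
    intro h0
    apply hi
    rw [coeff_map, ValuationSubring.mem_nonunits_iff_exists_mem_maximalIdeal]
    refine ⟨(P'.coeff i).2, ?_⟩
    have h1 : Pb.coeff i = 0 := by rw [h0, coeff_zero]
    rw [hPb, coeff_map, IsLocalRing.residue_eq_zero_iff] at h1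
    exact h1
  have hsurj : Function.Surjective (IsLocalRing.residue A) := IsLocalRing.residue_surjective
  let lift : IsLocalRing.ResidueField A → K := fun r => ((hsurj r).choose : K)
  have hlift : ∀ r, ∃ a : A, (a : K) = lift r ∧ IsLocalRing.residue A a = r := fun r =>
    ⟨(hsurj r).choose, rfl, (hsurj r).choose_spec⟩
  refine ⟨Pb.roots.toFinset.image lift, fun t ht hav hbad => ?_⟩
  rw [ValuationSubring.mem_nonunits_iff_exists_mem_maximalIdeal] at hbad
  obtain ⟨hmem, hmax⟩ := hbad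
  have e1 : (⟨(P'.map A.subtype).eval t, hmem⟩ : A) = P'.eval ⟨t, ht⟩ := by
    apply Subtype.ext
    show (P'.map A.subtype).eval t = A.subtype (P'.eval ⟨t, ht⟩)
    rw [eval_map]
    exact Polynomial.eval₂_at_apply A.subtype (⟨t, ht⟩ : A)
  rw [e1, ← IsLocalRing.residue_eq_zero_iff] at hmax
  have hroot : Pb.eval (IsLocalRing.residue A ⟨t, ht⟩) = 0 := by
    rw [hPb, eval_map, ← hmax, Polynomial.eval₂_hom]
  have hmemroots : IsLocalRing.residue A ⟨t, ht⟩ ∈ Pb.roots.toFinset := by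
    rw [Multiset.mem_toFinset, mem_roots hPb0]
    exact hroot
  obtain ⟨a, ha, har⟩ := hlift (IsLocalRing.residue A ⟨t, ht⟩)
  apply hav _ (Finset.mem_image_of_mem lift hmemroots)
  rw [← ha, ValuationSubring.mem_nonunits_iff_exists_mem_maximalIdeal]
  refine ⟨A.sub_mem ht a.2, ?_⟩
  rw [← IsLocalRing.residue_eq_zero_iff]
  have : (⟨t - (a : K), A.sub_mem ht a.2⟩ : A) = ⟨t, ht⟩ - a := rfl
  rw [this, map_sub, har, sub_self]

/-- **interpolation**. -/
theorem coeff_dv_of_eval (A : ValuationSubring K)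
    (hinf : ∀ s : Finset K, ∃ t ∈ A, ∀ γ ∈ s, t - γ ∉ A.nonunits) (ϖ : K) (Q : K[X])
    (Γ : Finset K)
    (h : ∀ t ∈ A, (∀ γ ∈ Γ, t - γ ∉ A.nonunits) → ∃ a ∈ A, Q.eval t = ϖ * a) :
    ∀ i, ∃ a ∈ A, Q.coeff i = ϖ * a := by
  classical
  by_cases hQ : Q = 0
  · intro i
    exact ⟨0, A.zero_mem, by rw [hQ]; simp⟩
  obtain ⟨d, hd0, Q', hQ', hQe⟩ := exists_content' (A := A) hQ
  obtain ⟨Γ', hΓ'⟩ := exists_bad_set hQ'
  obtain ⟨t, ht, hav⟩ := hinf (Γ ∪ Γ')
  have hu := hΓ' t ht fun γ hγ => hav γ (Finset.mem_union_right _ hγ)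
  obtain ⟨a, ha, hae⟩ := h t ht fun γ hγ => hav γ (Finset.mem_union_left _ hγ)
  have hu0 : Q'.eval t ≠ 0 := by
    intro h0
    apply hu
    rw [h0]
    exact (A.mem_nonunits_iff).2 (by simp)
  have huinv : (Q'.eval t)⁻¹ ∈ A := by
    rw [← A.valuation_le_one_iff, map_inv₀]
    have h3 : ¬ A.valuation (Q'.eval t) < 1 := fun h4 => hu ((A.mem_nonunits_iff).2 h4)
    push Not at h3
    exact inv_le_one_of_one_le₀ h3
  have hd : Dv A ϖ d := by
    refine ⟨a * (Q'.eval t)⁻¹, A.mul_mem _ _ ha huinv, ?_⟩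
    rw [← mul_assoc, ← hae, hQe, eval_mul, eval_C, mul_assoc, mul_inv_cancel₀ hu0, mul_one]
  intro i
  have := hd.mul_right (hQ'.1 i)
  obtain ⟨b, hb, hbe⟩ := this
  exact ⟨b, hb, by rw [hQe, coeff_C_mul, hbe]⟩

end Fermat.Agent.S33.N4
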