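import Mathlib

set_option autoImplicit false

/-!
# S33 / N4 : the polynomial core of (EV)

`P1, P2` monic of the same degree with coefficients in the valuation ring `A`; if
`c0 * P1 ^ m - P2 ^ m ∈ ϖ A[X]` then `m * (P1 - P2) ∈ ϖ A[X]`.
-/

open Polynomial

namespace Fermat.Agent.S33.N4

variable {K : Type*} [Field K]

/-- all coefficients in `A`. -/
def IntP (A : ValuationSubring K) (P : K[X]) : Prop := ∀ i, P.coeff i ∈ A

/-- integral, with a unit coefficient. -/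
def PrimP (A : ValuationSubring K) (P : K[X]) : Prop := IntP A P ∧ ∃ i, P.coeff i ∉ A.nonunits

/-- `x ∈ ϖ A`. -/
def Dv (A : ValuationSubring K) (ϖ x : K) : Prop := ∃ a ∈ A, x = ϖ * a

theorem Dv.add {A : ValuationSubring K} {ϖ x y : K} (hx : Dv A ϖ x) (hy : Dv A ϖ y) :
    Dv A ϖ (x + y) := by
  obtain ⟨a, ha, rfl⟩ := hx
  obtain ⟨b, hb, rfl⟩ := hy
  exact ⟨a + b, A.add_mem _ _ ha hb, by ring⟩

theorem Dv.sub {A : ValuationSubring K} {ϖ x y : K} (hx : Dv A ϖ x) (hy : Dv A ϖ y) :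
    Dv A ϖ (x - y) := by
  obtain ⟨a, ha, rfl⟩ := hx
  obtain ⟨b, hb, rfl⟩ := hy
  exact ⟨a - b, A.sub_mem ha hb, by ring⟩

theorem Dv.mul_right {A : ValuationSubring K} {ϖ x y : K} (hx : Dv A ϖ x) (hy : y ∈ A) :
    Dv A ϖ (x * y) := by
  obtain ⟨a, ha, rfl⟩ := hx
  exact ⟨a * y, A.mul_mem _ _ ha hy, by ring⟩

theorem exists_lift {A : ValuationSubring K} {P : K[X]} (hP : IntP A P) :
    ∃ P' : A[X], P'.map A.subtype = P := by
  have : P ∈ Polynomial.lifts A.subtype := by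
    rw [Polynomial.lifts_iff_coeff_lifts]
    intro n
    exact ⟨⟨P.coeff n, hP n⟩, rfl⟩
  exact (Polynomial.mem_lifts _).1 this

theorem IntP.mul {A : ValuationSubring K} {P Q : K[X]} (hP : IntP A P) (hQ : IntP A Q) :
    IntP A (P * Q) := by
  obtain ⟨P', rfl⟩ := exists_lift hP
  obtain ⟨Q', rfl⟩ := exists_lift hQ
  intro i
  rw [← Polynomial.map_mul, coeff_map]
  exact ((P' * Q').coeff i).2

theorem IntP.one (A : ValuationSubring K) : IntP A (1 : K[X]) := by
  intro i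
  rw [coeff_one]
  split_ifs
  · exact A.one_mem
  · exact A.zero_mem

theorem IntP.pow {A : ValuationSubring K} {P : K[X]} (hP : IntP A P) (n : ℕ) :
    IntP A (P ^ n) := by
  induction n with
  | zero => simpa using IntP.one A
  | succ n ih => rw [pow_succ]; exact ih.mul hP

/-- **Gauss' lemma**. -/
theorem PrimP.mul {A : ValuationSubring K} {P Q : K[X]} (hP : PrimP A P) (hQ : PrimP A Q) :
    PrimP A (P * Q) := by
  refine ⟨hP.1.mul hQ.1, ?_⟩
  obtain ⟨P', rfl⟩ := exists_lift hP.1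
  obtain ⟨Q', rfl⟩ := exists_lift hQ.1
  have key : ∀ R' : A[X], (∃ i, (R'.map A.subtype).coeff i ∉ A.nonunits) ↔
      R'.map (IsLocalRing.residue A) ≠ 0 := by
    intro R'
    constructor
    · rintro ⟨i, hi⟩ h0
      apply hi
      rw [coeff_map, ValuationSubring.mem_nonunits_iff_exists_mem_maximalIdeal]
      refine ⟨(R'.coeff i).2, ?_⟩
      have h1 : (R'.map (IsLocalRing.residue A)).coeff i = 0 := by rw [h0, coeff_zero]
      rw [coeff_map, IsLocalRing.residue_eq_zero_iff] at h1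
      exact h1
    · intro h0
      by_contra hcon
      push Not at hcon
      apply h0
      ext i
      rw [coeff_map, coeff_zero, IsLocalRing.residue_eq_zero_iff]
      have h1 := hcon i
      rw [coeff_map, ValuationSubring.mem_nonunits_iff_exists_mem_maximalIdeal] at h1
      obtain ⟨_, h2⟩ := h1
      exact h2
  rw [← Polynomial.map_mul, key, Polynomial.map_mul]
  exact mul_ne_zero ((key P').1 hP.2) ((key Q').1 hQ.2)

theorem PrimP.one (A : ValuationSubring K) : PrimP A (1 : K[X]) := by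
  refine ⟨IntP.one A, 0, ?_⟩
  rw [coeff_one_zero]
  intro h
  have := (A.mem_nonunits_iff).1 h
  simp at this

theorem PrimP.prod {A : ValuationSubring K} {ι : Type*} (s : Finset ι) (D : ι → K[X])
    (h : ∀ i ∈ s, PrimP A (D i)) : PrimP A (∏ i ∈ s, D i) :=
  Finset.prod_induction D (PrimP A) (fun _ _ => PrimP.mul) (PrimP.one A) h

/-- the content. -/
theorem exists_content {A : ValuationSubring K} {D : K[X]} (hD : IntP A D) (h0 : D ≠ 0) :
    ∃ d ∈ A, ∃ D' : K[X], PrimP A D' ∧ D = C d * D' := by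
  have hne : D.support.Nonempty := by
    rwa [Finset.nonempty_iff_ne_empty, Ne, Polynomial.support_eq_empty]
  obtain ⟨i0, hi0, hmax⟩ := Finset.exists_max_image D.support
    (fun i => A.valuation (D.coeff i)) hne
  have hd0 : D.coeff i0 ≠ 0 := Polynomial.mem_support_iff.1 hi0
  refine ⟨D.coeff i0, hD i0, C (D.coeff i0)⁻¹ * D, ⟨?_, i0, ?_⟩, ?_⟩
  · intro j
    rw [coeff_C_mul, ← A.valuation_le_one_iff, map_mul, map_inv₀]
    by_cases hj : D.coeff j = 0
    · rw [hj, map_zero, mul_zero]; exact zero_le_one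
    · have h1 := hmax j (Polynomial.mem_support_iff.2 hj)
      have h2 : A.valuation (D.coeff i0) ≠ 0 := (Valuation.ne_zero_iff _).2 hd0
      rw [inv_mul_le_iff₀ (zero_lt_iff.2 h2), mul_one]
      exact h1
  · rw [coeff_C_mul, inv_mul_cancel₀ hd0]
    intro h
    have := (A.mem_nonunits_iff).1 h
    simp at this
  · rw [← mul_assoc, ← C_mul, mul_inv_cancel₀ hd0, C_1, one_mul]

theorem root_mem (A : ValuationSubring K) {m : ℕ} (hm : m ≠ 0) {z : K} (hz : z ^ m = 1) :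
    z ∈ A := by
  rw [← A.valuation_le_one_iff]
  by_contra h
  push Not at h
  have h1 := one_lt_pow₀ h hm
  rw [← map_pow, hz, map_one] at h1
  exact lt_irrefl _ h1

theorem pow_sub_pow_eq {m : ℕ} (hm : 0 < m) {ζ : K} (hζ : IsPrimitiveRoot ζ m) (P1 P2 : K[X]) :
    P1 ^ m - P2 ^ m = ∏ z ∈ nthRootsFinset m (1 : K), (P1 - C z * P2) := by
  have h' : IsPrimitiveRoot (C ζ : K[X]) m := hζ.map_of_injective C_injective
  rw [h'.pow_sub_pow_eq_prod_sub_mul _ _ hm]
  classical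
  have himg : (nthRootsFinset m (1 : K)).image (C : K → K[X]) = nthRootsFinset m (1 : K[X]) := by
    apply Finset.eq_of_subset_of_card_le
    · intro a ha
      obtain ⟨b, hb, rfl⟩ := Finset.mem_image.1 ha
      exact map_mem_nthRootsFinset_one hb C
    · rw [Finset.card_image_of_injective _ C_injective, hζ.card_nthRootsFinset,
        h'.card_nthRootsFinset]
  rw [← himg, Finset.prod_image (fun a _ b _ H => C_injective H)]

theorem prod_one_sub [DecidableEq K] {m : ℕ} (hm : 0 < m) {ζ : K} (hζ : IsPrimitiveRoot ζ m) :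
    ∏ z ∈ (nthRootsFinset m (1 : K)).erase 1, (1 - z) = (m : K) := by
  have h1 : (1 : K) ∈ nthRootsFinset m (1 : K) := by
    rw [mem_nthRootsFinset hm]; exact one_pow _
  have h := pow_sub_pow_eq hm hζ (1 + X) 1
  rw [← Finset.mul_prod_erase _ _ h1] at h
  have h2 : ((1 : K[X]) + X - C 1 * 1) = X := by simp
  rw [h2] at h
  have h3 := congrArg (fun Q : K[X] => Q.coeff 1) h
  simp only [one_pow, coeff_sub, coeff_one_add_X_pow, Nat.choose_one_right, coeff_X_mul] at h3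
  rw [coeff_zero_eq_eval_zero, eval_prod] at h3
  simp only [mul_one, eval_sub, eval_add, eval_one, eval_X, add_zero, eval_C] at h3
  rw [← h3]
  simp [coeff_one]

/-- **the polynomial core of (EV)**. -/
theorem ev_poly (A : ValuationSubring K) (m : ℕ) [NeZero m] (ζ : K) (hζ : IsPrimitiveRoot ζ m)
    (ϖ : K) (P1 P2 : K[X]) (h1 : P1.Monic) (h2 : P2.Monic) (hdeg : P1.natDegree = P2.natDegree)
    (hA1 : ∀ i, P1.coeff i ∈ A) (hA2 : ∀ i, P2.coeff i ∈ A) (c0 : K)
    (h : ∀ i, ∃ a ∈ A, (C c0 * P1 ^ m - P2 ^ m).coeff i = ϖ * a) :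
    ∀ i, ∃ a ∈ A, (m : K) * (P1 - P2).coeff i = ϖ * a := by
  classical
  have hm : 0 < m := Nat.pos_of_ne_zero (NeZero.ne m)
  set S := nthRootsFinset m (1 : K) with hS
  have h1S : (1 : K) ∈ S := by rw [hS, mem_nthRootsFinset hm]; exact one_pow _
  have hzA : ∀ z ∈ S, z ∈ A := fun z hz =>
    root_mem A hm.ne' ((mem_nthRootsFinset hm _).1 hz)
  by_cases hE : P1 - P2 = 0
  · intro i
    exact ⟨0, A.zero_mem, by rw [hE]; simp⟩
  set d := P1.natDegree with hd
  -- the constant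
  have hc0 : Dv A ϖ (c0 - 1) := by
    obtain ⟨a, ha, hae⟩ := h (m * d)
    refine ⟨a, ha, ?_⟩
    rw [← hae, coeff_sub, coeff_C_mul]
    have e1 : (P1 ^ m).coeff (m * d) = 1 := by
      have := (h1.pow m).coeff_natDegree
      rwa [h1.natDegree_pow] at this
    have e2 : (P2 ^ m).coeff (m * d) = 1 := by
      have := (h2.pow m).coeff_natDegree
      rwa [h2.natDegree_pow, ← hdeg] at this
    rw [e1, e2, mul_one]
  have hdiff : ∀ i, Dv A ϖ ((P1 ^ m - P2 ^ m).coeff i) := by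
    intro i
    have e : (P1 ^ m - P2 ^ m).coeff i
        = (C c0 * P1 ^ m - P2 ^ m).coeff i - (c0 - 1) * (P1 ^ m).coeff i := by
      simp only [coeff_sub, coeff_C_mul]; ring
    rw [e]
    obtain ⟨a, ha, hae⟩ := h i
    exact Dv.sub ⟨a, ha, hae⟩ (hc0.mul_right (IntP.pow hA1 m i))
  -- the factors
  let D : K → K[X] := fun z => P1 - C z * P2
  have hDint : ∀ z ∈ S, IntP A (D z) := by
    intro z hz i
    show (P1 - C z * P2).coeff i ∈ A
    rw [coeff_sub, coeff_C_mul]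
    exact A.sub_mem (hA1 i) (A.mul_mem _ _ (hzA z hz) (hA2 i))
  have hDlead : ∀ z, (D z).coeff d = 1 - z := by
    intro z
    show (P1 - C z * P2).coeff d = _
    have e1 : P1.coeff d = 1 := h1.coeff_natDegree
    have e2 : P2.coeff d = 1 := by rw [hdeg]; exact h2.coeff_natDegree
    rw [coeff_sub, coeff_C_mul, e1, e2, mul_one]
  have hD0 : ∀ z ∈ S, D z ≠ 0 := by
    intro z _ h0
    by_cases hz1 : z = 1
    · apply hE
      have : D 1 = P1 - P2 := by show P1 - C 1 * P2 = _; simp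
      rw [← this, ← hz1, h0]
    · have := hDlead z
      rw [h0, coeff_zero] at this
      exact hz1 (sub_eq_zero.1 this.symm).symm
  have hcont : ∀ z : K, ∃ dz : K, ∃ D' : K[X], z ∈ S → (dz ∈ A ∧ PrimP A D' ∧ D z = C dz * D') := by
    intro z
    by_cases hz : z ∈ S
    · obtain ⟨dz, hdz, D', hD', he⟩ := exists_content (hDint z hz) (hD0 z hz)
      exact ⟨dz, D', fun _ => ⟨hdz, hD', he⟩⟩
    · exact ⟨0, 0, fun h => absurd h hz⟩
  choose dd D' hdd using hcont
  have hprod : P1 ^ m - P2 ^ m = C (∏ z ∈ S, dd z) * ∏ z ∈ S, D' z := by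
    rw [pow_sub_pow_eq hm hζ, map_prod, ← Finset.prod_mul_distrib]
    exact Finset.prod_congr rfl fun z hz => (hdd z hz).2.2
  obtain ⟨-, i0, hi0⟩ := PrimP.prod S D' fun z hz => (hdd z hz).2.1
  have hi0A : (∏ z ∈ S, D' z).coeff i0 ∈ A :=
    (PrimP.prod S D' fun z hz => (hdd z hz).2.1).1 i0
  have hu0 : (∏ z ∈ S, D' z).coeff i0 ≠ 0 := by
    intro h0
    apply hi0
    rw [h0]
    exact (A.mem_nonunits_iff).2 (by simp)
  have huinv : ((∏ z ∈ S, D' z).coeff i0)⁻¹ ∈ A := by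
    rw [← A.valuation_le_one_iff, map_inv₀]
    have h3 : ¬ A.valuation ((∏ z ∈ S, D' z).coeff i0) < 1 := fun h4 =>
      hi0 ((A.mem_nonunits_iff).2 h4)
    push Not at h3
    exact inv_le_one_of_one_le₀ h3
  have hall : Dv A ϖ (∏ z ∈ S, dd z) := by
    have h4 := hdiff i0
    rw [hprod, coeff_C_mul] at h4
    have h5 := h4.mul_right huinv
    rwa [mul_assoc, mul_inv_cancel₀ hu0, mul_one] at h5
  -- `m = ∏_{z ≠ 1} (1 - z)`
  have hmm : (m : K) = (∏ z ∈ S.erase 1, dd z) * ∏ z ∈ S.erase 1, (D' z).coeff d := by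
    rw [← prod_one_sub hm hζ, ← Finset.prod_mul_distrib]
    refine Finset.prod_congr rfl fun z hz => ?_
    rw [← hDlead z, (hdd z (Finset.mem_of_mem_erase hz)).2.2, coeff_C_mul]
  have heA : (∏ z ∈ S.erase 1, (D' z).coeff d) ∈ A :=
    Subring.prod_mem A.toSubring fun z hz => (hdd z (Finset.mem_of_mem_erase hz)).2.1.1 d
  have hmd : Dv A ϖ ((m : K) * dd 1) := by
    have h6 := hall.mul_right heA
    rw [← Finset.mul_prod_erase _ _ h1S] at h6
    have e : (m : K) * dd 1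
        = (dd 1 * ∏ z ∈ S.erase 1, dd z) * ∏ z ∈ S.erase 1, (D' z).coeff d := by
      rw [hmm]; ring
    rw [e]
    exact h6
  intro i
  have e1 : P1 - P2 = C (dd 1) * D' 1 := by
    rw [← (hdd 1 h1S).2.2]
    show _ = P1 - C 1 * P2
    simp
  have h7 := hmd.mul_right ((hdd 1 h1S).2.1.1 i)
  obtain ⟨a, ha, hae⟩ := h7
  exact ⟨a, ha, by rw [e1, coeff_C_mul, ← hae]; ring⟩

theorem IntP.eval_mem {A : ValuationSubring K} {P : K[X]} (hP : IntP A P) {t : K} (ht : t ∈ A) :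
    P.eval t ∈ A := by
  rw [eval_eq_sum_range]
  exact Subring.sum_mem A.toSubring fun i _ => A.mul_mem _ _ (hP i) (A.pow_mem ht i)

theorem dv_eval {A : ValuationSubring K} {ϖ : K} {P : K[X]} (hP : ∀ i, Dv A ϖ (P.coeff i)) {t : K}
    (ht : t ∈ A) : Dv A ϖ (P.eval t) := by
  rw [eval_eq_sum_range]
  refine Finset.sum_induction _ (Dv A ϖ) (fun _ _ => Dv.add) ⟨0, A.zero_mem, by simp⟩ fun i _ => ?_
  exact (hP i).mul_right (A.pow_mem ht i)

/-- evaluation form. -/
theorem ev_eval (A : ValuationSubring K) (m : ℕ) [NeZero m] (ζ : K) (hζ : IsPrimitiveRoot ζ m)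
    (ϖ : K) (P1 P2 : K[X]) (h1 : P1.Monic) (h2 : P2.Monic) (hdeg : P1.natDegree = P2.natDegree)
    (hA1 : ∀ i, P1.coeff i ∈ A) (hA2 : ∀ i, P2.coeff i ∈ A) (c0 : K)
    (h : ∀ i, ∃ a ∈ A, (C c0 * P1 ^ m - P2 ^ m).coeff i = ϖ * a)
    (t : K) (ht : t ∈ A) (hu0 : P2.eval t ≠ 0) (hu : (P2.eval t)⁻¹ ∈ A) :
    ∃ a ∈ A, (m : K) * (P1.eval t / P2.eval t - 1) = ϖ * a := by
  have h3 := ev_poly A m ζ hζ ϖ P1 P2 h1 h2 hdeg hA1 hA2 c0 h
  have h4 : ∀ i, Dv A ϖ ((C (m : K) * (P1 - P2)).coeff i) := by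
    intro i
    rw [coeff_C_mul]
    exact h3 i
  have h5 := (dv_eval h4 ht).mul_right hu
  obtain ⟨a, ha, hae⟩ := h5
  refine ⟨a, ha, ?_⟩
  rw [← hae, eval_mul, eval_C, eval_sub]
  field_simp

end Fermat.Agent.S33.N4
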